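import Mathlib
import Fermat.Agent.LT.T7.Level2

/-!
# Row LT, tower T7, level 2: THE UPSTAIRS CORE (helper29, deputy of T7.L2Q)

OFF-MAIN.  Definitions, ONE frozen Prop, PROVED bridge.  No hole, nothing assumed.
ADDITIVE to `T7/Level2.lean` (helper797@819237e8b, sha256 15516646): new names only, namespace
`Fermat.Agent.LT.T7.H29`.

## Why

The node `T7.SpecUpC K K'` is typed with the hypotheses of the CYCLIC case (`IsCycExt K K' ℓ`,
`ℓ ≠ 2`, `TotCplx K`) and with the whole structure `IsL2Data` (which contains the downstairs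
fields over `K`).  Its proof uses only the UPSTAIRS fields.  The quadratic step `F/ℚ` (`ℓ = 2`,
`ℚ` not totally complex, two `K_∞`-types downstairs) needs the SAME statement upstairs.  So the
upstairs half is isolated here:

* `UpData K'`, `IsUpData ℓ Φ U` : the upstairs fields of `L2Data` / `IsL2Data`, over `K'` ALONE
  (no base field): `σ` of order `ℓ` with fixed field `k`, frame, base level `𝔑₀`, levels `𝔑 g`,
  the orbit, the family `φ' g X k m`, (OP-up), (KILL-up), the projection, `base_ne`, and the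
  `σ`-invariance of `Φ` outside `S'` in the form `T5.PlaceRel`;
* `SpecUpCoreC K'` : the conclusion of `SpecUpC` for every `UpData` over a totally complex `K'`
  and every prime `ℓ`;
* PROVED `specUpC_of_core : SpecUpCoreC K' → T7.SpecUpC K K'`.

The quadratic mirror (`Level2Q.lean`) consumes `SpecUpCoreC F` directly.  So ONE proof of
`SpecUpCoreC` serves both steps.
-/

set_option autoImplicit false

open AutomorphicForm IsDedekindDomain NumberField MeasureTheory
open scoped ComplexConjugate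

noncomputable section

namespace Fermat.Agent.LT.T7.H29

open Fermat.Agent.LT.H556 Fermat.Agent.LT.H556.A0 Fermat.Agent.LT.T7

attribute [local instance] Fermat.Agent.LT.T5.instMeasurableSpaceG

/-! ## 1. The upstairs data -/

section Up

variable (K' : Type) [Field K'] [NumberField K']

/-- The upstairs part of the data of level 2 (`T7.L2Data` without the base field). -/
structure UpData where
  /-- the degree -/
  l : ℕ
  /-- the generator of the Galois group with its extension to the adeles -/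
  s : T5.AdelicAut K'
  /-- the fixed field -/
  k : Subfield K'
  /-- the frame -/
  R' : Frame5 K'
  /-- the base level -/
  𝔑₀ : Ideal (𝓞 K')
  /-- the places dividing the base level -/
  S' : Finset (HeightOneSpectrum (𝓞 K'))
  /-- the `σ`-orbit over the regular place -/
  o : ℕ → HeightOneSpectrum (𝓞 K')
  /-- the level for the bad element `g` -/
  𝔑 : G K' → Ideal (𝓞 K')
  /-- the scalar of the Eisenstein-killing base on the eigen-classes -/
  c : G K' → EigData K' → ℂ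
  /-- the family of test functions -/
  φ' : G K' → List (Gen K') → ℤ → ℕ → G K' → ℂ
  /-- the regular depth -/
  m₀ : G K' → List (Gen K') → ℕ

variable {K'}

/-- `g` is supported at the bad places: the places of `S'` outside the orbit. -/
def UpData.IsBad (U : UpData K') (g : G K') : Prop :=
  (∀ w : InfinitePlace K', TrivAtInf w g) ∧
    ∀ v : HeightOneSpectrum (𝓞 K'), (v ∉ U.S' ∨ ∃ j < U.l, v = U.o j) → TrivAtFin v g

/-- **THE PROPERTIES OF THE UPSTAIRS DATA** = the upstairs fields of `T7.IsL2Data`, over `K'`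
alone. -/
structure IsUpData (ℓ : ℕ) (Φ : HeckeEigensystem K' ℂ) (U : UpData K') : Prop where
  deg : U.l = ℓ
  cyc : T5.IsCyclicOfDegree U.s U.l U.k
  frame' : IsFrame5 U.R'
  level_ne : ∀ g : G K', U.IsBad g → U.𝔑 g ≠ ⊥
  aut : ∀ g : G K', U.IsBad g → T5.AutPreserves U.s (U.𝔑 g) U.R'.μ U.R'.r
  level_le : U.𝔑₀ ≤ Φ.level
  level_g : ∀ g : G K', U.IsBad g → U.𝔑 g ≤ U.𝔑₀
  mem_S' : ∀ w : HeightOneSpectrum (𝓞 K'), w ∈ U.S' ↔ w.asIdeal ∣ U.𝔑₀
  mem_S'_g : ∀ g : G K', U.IsBad g →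
    ∀ w : HeightOneSpectrum (𝓞 K'), w ∈ U.S' ↔ w.asIdeal ∣ U.𝔑 g
  /-- `Φ ∘ σ = Φ` outside `S'` -/
  const : ∀ w : HeightOneSpectrum (𝓞 K'), w ∉ U.S' →
    ∀ w' : HeightOneSpectrum (𝓞 K'), w' ∉ U.S' → T5.PlaceRel U.s w w' →
      Φ.a w = Φ.a w' ∧ Φ.b w = Φ.b w'
  orbit_rel : ∀ j : ℕ, T5.PlaceRel U.s (U.o j) (U.o (j + 1))
  orbit_ne : ∀ j : ℕ, 0 < j → j < ℓ → U.o j ≠ U.o 0
  orbit_level : ∀ j : ℕ, U.o j ∈ U.S'
  orbit_good : ∀ j : ℕ, ¬ (U.o j).asIdeal ∣ Φ.level
  /-- the members are products of Eisenstein-killing test functions -/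
  ekprod_up : ∀ (g : G K') (X : List (Gen K')) (k : ℤ) (m : ℕ), U.IsBad g →
    (∀ x ∈ X, x.Out U.S') → IsEKProd (U.𝔑 g) U.R' (U.φ' g X k m)
  /-- regularity from the depth `m₀ g X` on -/
  reg_up : ∀ (g : G K') (X : List (Gen K')) (k : ℤ) (m : ℕ), U.IsBad g →
    (∀ x ∈ X, x.Out U.S') → U.m₀ g X ≤ m →
    T5.IsTwRegular U.s U.l U.k (U.φ' g X k m)
  /-- the scalar of the base does not vanish on the class of `Φ` -/
  base_ne : ∀ g : G K', U.IsBad g →
    ∀ C : EigData K', C.AgreeOut U.S' (eigOf Φ) → U.c g C ≠ 0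
  /-- (OP-up) -/
  op_up : ∀ (g : G K') (X : List (Gen K')) (k : ℤ) (m : ℕ), U.IsBad g →
    (∀ x ∈ X, x.Out U.S') →
    ∀ (ψ : G K' → ℂ) (C : EigData K'), IsEigFn U.𝔑₀ U.R'.r ℓ U.o ψ C →
    ∀ (Hg H : Finset (G K')) (z : G K'), IsDblCosetSystem U.𝔑₀ g Hg →
      IsIwCosetSystem (U.o 0) H → IsScalarUniformizerAt (U.o 0) z →
      ∀ x : G K', T5.Rconv U.R'.μ (U.φ' g X k m) ψ x
        = wordEv X C * U.c g C * cosetOp Hg (shiftOp z k ((iwOp (U.o 0) H)^[m] ψ)) x
  /-- (KILL-up) -/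
  kill_up : ∀ (g : G K') (X : List (Gen K')) (k : ℤ) (m : ℕ), U.IsBad g →
    (∀ x ∈ X, x.Out U.S') →
    ∀ ψ : G K' → ℂ, T5.IsCuspFn (U.𝔑 g) T5.trivType U.R'.r ψ →
      (∀ χ : G K' → ℂ, IsWFn U.𝔑₀ U.R'.r ℓ U.o χ →
        T5.innerD U.R'.μ U.R'.F ψ χ = 0) →
      ∀ x : G K', T5.Rconv U.R'.μ (U.φ' g X k m) ψ x = 0
  /-- the orthogonal projection on the invariant cusp functions -/
  proj_up : ∀ g : G K', U.IsBad g →
    ∀ ψ : G K' → ℂ, T5.IsCuspFn (U.𝔑 g) T5.trivType U.R'.r ψ →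
    ∃ ψ₁ : G K' → ℂ, IsWFn U.𝔑₀ U.R'.r ℓ U.o ψ₁ ∧
      ∀ χ : G K' → ℂ, IsWFn U.𝔑₀ U.R'.r ℓ U.o χ →
        T5.innerD U.R'.μ U.R'.F (fun x => ψ x - ψ₁ x) χ = 0

variable (K')

/-- **NODE T7.L2.2c = SPEC-UP, CORE FORM** (spectral half upstairs + non-vanishing, over `K'`
alone).  The statement of `T7.SpecUpC` for the upstairs data: `K'` totally complex, `σ` of prime
order `ℓ` (`ℓ = 2` allowed), `Φ` a cusp form of A0 which is `σ`-invariant outside `S'`. -/
def SpecUpCoreC : Prop :=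
  ∀ ℓ : ℕ, ℓ.Prime → TotCplx K' →
    ∀ Φ : HeckeEigensystem K' ℂ, A0.IsCuspAdelicSph0 K' Φ →
      ∀ U : UpData K', IsUpData ℓ Φ U →
      ∃ (g : G K') (e' : ℕ → G K' → ℂ) (ι' : Type) (C : ι' → EigData K') (b' l' : ι' → ℂ)
        (R : ℝ) (y : ι' → ℂ),
        U.IsBad g ∧
        T5.IsCuspONB (U.𝔑 g) T5.trivType U.R'.r U.R'.μ U.R'.F e' ∧
        Summable (fun j => ‖y j‖) ∧ (∀ j, (C j).IsUnitaryOut U.S') ∧
        (∀ j, IsRegParam R (b' j) (l' j)) ∧
        (∀ X : List (Gen K'), (∀ x ∈ X, x.Out U.S') → ∀ (k : ℤ) (m : ℕ), U.m₀ g X ≤ m →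
          specSide U.s U.R' e' (U.φ' g X k m)
            = ∑' j, wordEv X (C j) * y j * b' j ^ k * l' j ^ m) ∧
        ∃ b₀ l₀ : ℂ,
          (∑' j : {j : {j : ι' // b' j = b₀ ∧ l' j = l₀} //
              (C j.1).AgreeOut U.S' (eigOf Φ)}, y j.1.1) ≠ 0

end Up

/-! ## 2. The bridge from `T7.L2Data` -/

section Bridge

variable {K K' : Type} [Field K] [NumberField K] [Field K'] [NumberField K'] [Algebra K K']

/-- The upstairs part of the data of level 2. -/
def upOf (Dt : L2Data K K') : UpData K' where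
  l := Dt.l
  s := Dt.s
  k := Dt.k
  R' := Dt.R'
  𝔑₀ := Dt.𝔑₀
  S' := Dt.S'
  o := Dt.o
  𝔑 := Dt.𝔑
  c := Dt.c
  φ' := Dt.φ'
  m₀ := Dt.m₀

theorem isBad_upOf_iff (Dt : L2Data K K') (g : G K') : (upOf Dt).IsBad g ↔ Dt.IsBad g :=
  Iff.rfl

theorem trivAtInf_one29 (w : InfinitePlace K') : TrivAtInf w (1 : G K') := by
  intro i j
  rw [Units.val_one, Matrix.one_apply, Matrix.one_apply]
  split_ifs <;> rfl

theorem trivAtFin_one29 (v : HeightOneSpectrum (𝓞 K')) : TrivAtFin v (1 : G K') := by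
  unfold TrivAtFin finComp
  ext i j
  rw [Units.val_one, Matrix.one_apply, Matrix.one_apply]
  split_ifs <;> rfl

/-- The identity is supported at the bad places. -/
theorem isBad_one (Dt : L2Data K K') : Dt.IsBad (1 : G K') :=
  ⟨fun w => trivAtInf_one29 w, fun v _ => trivAtFin_one29 v⟩

/-- A totally complex base field has totally complex extensions. -/
theorem totCplx_of_base (h : TotCplx K) : TotCplx K' := by
  intro w
  rw [← InfinitePlace.not_isReal_iff_isComplex]
  intro hw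
  exact (InfinitePlace.not_isReal_iff_isComplex.2 (h (w.comap (algebraMap K K'))))
    (InfinitePlace.IsReal.comap (algebraMap K K') hw)

/-- The place of `K` under a place of `K'`. -/
theorem placeOver_under (w : HeightOneSpectrum (𝓞 K')) :
    PlaceOver K K' (w.under (𝓞 K)) w := by
  intro x y hxy
  have hy : y = algebraMap (𝓞 K) (𝓞 K') x := RingOfIntegers.ext hxy
  subst hy
  rfl

/-- Two places related by an automorphism which fixes the image of `K` lie over the same place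
of `K`. -/
theorem placeOver_of_placeRel (s : T5.AdelicAut K')
    (hfix : ∀ x : K, s.σ (algebraMap K K' x) = algebraMap K K' x)
    {w w' : HeightOneSpectrum (𝓞 K')} (hrel : T5.PlaceRel s w w')
    (v : HeightOneSpectrum (𝓞 K)) (hv : PlaceOver K K' v w) : PlaceOver K K' v w' := by
  intro x y hxy
  rw [hv x y hxy]
  have hσy : RingOfIntegers.mapRingEquiv s.σ y = y := by
    apply RingOfIntegers.ext
    rw [RingOfIntegers.mapRingEquiv_apply, hxy, hfix]
  unfold T5.PlaceRel at hrel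
  rw [hrel, Ideal.mem_map_of_equiv]
  constructor
  · intro hy
    exact ⟨y, hy, hσy⟩
  · rintro ⟨x', hx', hx'y⟩
    have : x' = y := by
      apply (RingOfIntegers.mapRingEquiv s.σ).injective
      rw [hx'y, hσy]
    rw [← this]
    exact hx'

/-- **The upstairs fields of `IsL2Data`.** -/
theorem isUpData_upOf {ℓ : ℕ} {Φ : HeckeEigensystem K' ℂ} {Dt : L2Data K K'}
    (h : IsL2Data ℓ Φ Dt) : IsUpData ℓ Φ (upOf Dt) where
  deg := h.deg
  cyc := (h.comp 1 (isBad_one Dt)).cyc
  frame' := (h.comp 1 (isBad_one Dt)).frame'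
  level_ne := fun g hg => by
    show Ideal.map (algebraMap (𝓞 K) (𝓞 K')) (Dt.𝔫 g) ≠ ⊥
    rw [Ne, Ideal.map_eq_bot_iff_of_injective (RingOfIntegers.algebraMap.injective K K')]
    exact (h.comp g hg).level_ne
  aut := fun g hg => (h.comp g hg).aut
  level_le := h.level_le
  level_g := h.level_g
  mem_S' := h.mem_S'
  mem_S'_g := h.mem_S'_g
  const := fun w hw w' hw' hrel => by
    have hD := h.comp 1 (isBad_one Dt)
    have hfix : ∀ x : K, Dt.s.σ (algebraMap K K' x) = algebraMap K K' x := fun x =>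
      (hD.cyc.fixed _).1 ((hD.base _).2 ⟨x, rfl⟩)
    exact h.const w hw w' hw' (w.under (𝓞 K)) (placeOver_under w)
      (placeOver_of_placeRel Dt.s hfix hrel _ (placeOver_under w))
  orbit_rel := h.orbit_rel
  orbit_ne := h.orbit_ne
  orbit_level := h.orbit_level
  orbit_good := h.orbit_good
  ekprod_up := h.ekprod_up
  reg_up := h.reg_up
  base_ne := h.base_ne
  op_up := h.op_up
  kill_up := h.kill_up
  proj_up := h.proj_up

/-- **`T7.SpecUpC` from the core form.** -/
theorem specUpC_of_core (hC : SpecUpCoreC K') : SpecUpC K K' := by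
  intro ℓ hcyc _ hcplx Φ hΦ _ Dt hDt
  exact hC ℓ hcyc.prime (totCplx_of_base hcplx) Φ hΦ (upOf Dt) (isUpData_upOf hDt)

end Bridge

end Fermat.Agent.LT.T7.H29

end
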