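import Mathlib
import Fermat.Agent.LT.T7.Level2
import Fermat.Agent.LT.T7.H736.SpecUp
import Fermat.Agent.LT.T7.H826.Level2Q
import Fermat.Agent.LT.T7.H29.UpCore

/-!
# Row LT, tower T7, level 2/3: ONE UPSTAIRS PROOF FOR BOTH STEPS (helper29, deputy of T7.L2Q)

OFF-MAIN.  Definitions, frozen Props, PROVED bridges.  No hole, nothing assumed.
ADDITIVE (new names only, namespace `Fermat.Agent.LT.T7.H29`) to
`T7/Level2.lean` (helper797, 15516646), `T7/H736/SpecUp.lean` (helper736, the cut of `SpecUpC`),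
`T7/H826/Level2Q.lean` (helper826, level 2 of the quadratic step), `T7/H29/UpCore.lean`.

## The point

The nodes `SU736.ExpUpC K K'` and `SU736.NonVanC K K'` of the cut of `SpecUpC` are typed on
`L2Data K K'` with the hypotheses of the CYCLIC step (`IsCycExt K K' ℓ`, `ℓ ≠ 2`, `TotCplx K`).
The quadratic step needs the SAME two statements for `L2Q.L2QData F` (`ℓ = 2`, base field `ℚ`).
Both are statements about the field UPSTAIRS only.  Here they are typed ONCE, on `H29.UpData K'`: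

    ExpUpCoreC K', NonVanCoreC K'                       (the two nodes, over `K'` alone)
    specUpCoreSC_of  : ExpUpCoreC K' → NonVanCoreC K' → SpecUpCoreSC K'
    expUpC_of_core   : ExpUpCoreC K'  → SU736.ExpUpC K K'        (cyclic step)
    nonVanC_of_core  : NonVanCoreC K' → SU736.NonVanC K K'       (cyclic step)
    specUpCS_of_core : SpecUpCoreSC K' → SU736.SpecUpCS K K'     (cyclic step)
    traceWordsQRegP_ofCore : SupplyQSC P F → SpecUpCoreSC F → L2Q.SpecDownQC F → L2Q.SpecIdQC F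
                               → T7.TraceWordsQRegP P F          (quadratic step, VERBATIM)

So the owners of the leaves under `ExpUpC` / `NonVanC` prove the CORE forms (same proofs: only
upstairs fields are used) and the node `L2Q.SpecUpQC` (registry 2152) needs NO second proof.
`SupplyQSC` = `L2Q.SupplyQC` + stability (`IsStableQ`: the base level is `σ`-stable and `S'`
contains every place over a prime of `S`; both are free for the supplier).
-/

set_option autoImplicit false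

open AutomorphicForm IsDedekindDomain NumberField MeasureTheory
open scoped ComplexConjugate

noncomputable section

namespace Fermat.Agent.LT.T7.H29

open Fermat.Agent.LT.H556 Fermat.Agent.LT.H556.A0 Fermat.Agent.LT.T7

attribute [local instance] Fermat.Agent.LT.T5.instMeasurableSpaceG

/-! ## 1. The core nodes -/

section Core

variable {K' : Type} [Field K'] [NumberField K']

/-- **BASE STABILITY** (core form of `SU736.BaseStable`): `σ` preserves the frame at the base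
level `𝔑₀`. -/
def BaseStableU (U : UpData K') : Prop :=
  T5.AutPreserves U.s U.𝔑₀ U.R'.μ U.R'.r

variable (K')

/-- **NODE T7.L2.2c = SPEC-UP, core form, base-stable data.** -/
def SpecUpCoreSC : Prop :=
  ∀ ℓ : ℕ, ℓ.Prime → TotCplx K' →
    ∀ Φ : HeckeEigensystem K' ℂ, A0.IsCuspAdelicSph0 K' Φ →
      ∀ U : UpData K', IsUpData ℓ Φ U → BaseStableU U →
      ∃ (g : G K') (e' : ℕ → G K' → ℂ) (ι' : Type) (C : ι' → EigData K') (b' l' : ι' → ℂ)
        (R : ℝ) (y : ι' → ℂ),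
        U.IsBad g ∧
        T5.IsCuspONB (U.𝔑 g) T5.trivType U.R'.r U.R'.μ U.R'.F e' ∧
        Summable (fun j => ‖y j‖) ∧ (∀ j, (C j).IsUnitaryOut U.S') ∧
        (∀ j, IsRegParam R (b' j) (l' j)) ∧
        (∀ X : List (Gen K'), (∀ x ∈ X, x.Out U.S') → ∀ (k : ℤ) (m : ℕ), U.m₀ g X ≤ m →
          specSide U.s U.R' e' (U.φ' g X k m)
            = ∑' j, wordEv X (C j) * y j * b' j ^ k * l' j ^ m) ∧
        ∃ b₀ l₀ : ℂ,
          (∑' j : {j : {j : ι' // b' j = b₀ ∧ l' j = l₀} //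
              (C j.1).AgreeOut U.S' (eigOf Φ)}, y j.1.1) ≠ 0

/-- **NODE T7.L2.2.Ec = EXP-UP, core form** (`SU736.ExpUpC` over `K'` alone). -/
def ExpUpCoreC : Prop :=
  ∀ ℓ : ℕ, ℓ.Prime → TotCplx K' →
    ∀ Φ : HeckeEigensystem K' ℂ, A0.IsCuspAdelicSph0 K' Φ →
      ∀ U : UpData K', IsUpData ℓ Φ U → BaseStableU U → ∀ g : G K', U.IsBad g →
      ∃ (e' : ℕ → G K' → ℂ) (C : ℕ → EigData K') (b l : ℕ → ℂ) (R : ℝ) (y : ℕ → ℂ)
        (J : Finset ℕ),
        T5.IsCuspONB (U.𝔑 g) T5.trivType U.R'.r U.R'.μ U.R'.F e' ∧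
        Summable (fun j => ‖y j‖) ∧ (∀ j, (C j).IsUnitaryOut U.S') ∧
        (∀ j, IsRegParam R (b j) (l j)) ∧
        (∀ X : List (Gen K'), (∀ x ∈ X, x.Out U.S') → ∀ (k : ℤ) (m : ℕ), U.m₀ g X ≤ m →
          specSide U.s U.R' e' (U.φ' g X k m)
            = ∑' j, wordEv X (C j) * y j * b j ^ k * l j ^ m) ∧
        (∀ j, (C j).AgreeOut U.S' (eigOf Φ) → y j ≠ 0 → j ∈ J) ∧
        (∀ j ∈ J, (C j).AgreeOut U.S' (eigOf Φ)) ∧
        SU736.IsClassBasisOn U.𝔑₀ U.R' ℓ U.o (eigOf Φ) e' J ∧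
        ∀ Hg : Finset (G K'), IsDblCosetSystem U.𝔑₀ g Hg →
          ∑ j ∈ J, y j = U.c g (eigOf Φ) * SU736.twTrace U.s U.R' Hg e' J

/-- **NODE T7.L2.2.Nc = NON-VANISHING, core form** (`SU736.NonVanC` over `K'` alone). -/
def NonVanCoreC : Prop :=
  ∀ ℓ : ℕ, ℓ.Prime → TotCplx K' →
    ∀ Φ : HeckeEigensystem K' ℂ, A0.IsCuspAdelicSph0 K' Φ →
      ∀ U : UpData K', IsUpData ℓ Φ U → BaseStableU U →
      ∃ (g : G K') (Hg : Finset (G K')), U.IsBad g ∧ IsDblCosetSystem U.𝔑₀ g Hg ∧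
        ∀ (q : ℕ → G K' → ℂ) (J : Finset ℕ),
          SU736.IsClassBasisOn U.𝔑₀ U.R' ℓ U.o (eigOf Φ) q J →
            SU736.twTrace U.s U.R' Hg q J ≠ 0

variable {K'}

/-- `SpecUpCoreSC` is what `SpecUpCoreC` gives for base-stable data. -/
theorem specUpCoreSC_of_core (h : SpecUpCoreC K') : SpecUpCoreSC K' :=
  fun ℓ hℓ hcplx Φ hΦ U hU _ => h ℓ hℓ hcplx Φ hΦ U hU

/-- **THE TOP OF THE CORE NODE**: the proof of `SU736.specUpCS_of` on `UpData`. -/
theorem specUpCoreSC_of (hE : ExpUpCoreC K') (hN : NonVanCoreC K') : SpecUpCoreSC K' := by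
  classical
  intro ℓ hℓ hcplx Φ hΦ U hU hst
  obtain ⟨g, Hg, hg, hHg, hne⟩ := hN ℓ hℓ hcplx Φ hΦ U hU hst
  obtain ⟨e', C, b, l, R, y, J, hONB, hy, hUn, hp, hexp, hJ, hJ', hbasis, htr⟩ :=
    hE ℓ hℓ hcplx Φ hΦ U hU hst g hg
  refine ⟨g, e', ℕ, C, b, l, R, y, hg, hONB, hy, hUn, hp, hexp, ?_⟩
  have hc : U.c g (eigOf Φ) ≠ 0 :=
    hU.base_ne g hg (eigOf Φ) ⟨fun _ _ => ⟨rfl, rfl⟩, fun _ _ _ => rfl⟩
  have hsum : ∑ j ∈ J, y j ≠ 0 := by
    rw [htr Hg hHg]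
    exact mul_ne_zero hc (hne e' J hbasis)
  obtain ⟨⟨b₀, l₀⟩, hfib⟩ := SU736.exists_fibre_ne_zero736 J y (fun j => (b j, l j)) hsum
  refine ⟨b₀, l₀, ?_⟩
  rw [SU736.tsum_nested_eq_sum736 J y (fun j => b j = b₀ ∧ l j = l₀)
    (fun j => (C j).AgreeOut U.S' (eigOf Φ)) hJ hJ']
  have hfilter : (J.filter fun j => b j = b₀ ∧ l j = l₀)
      = J.filter fun j => (b j, l j) = (b₀, l₀) := by
    refine Finset.filter_congr fun j _ => ?_
    rw [Prod.mk.injEq]
  rw [hfilter]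
  exact hfib

end Core

/-! ## 2. The cyclic step: the nodes of helper736 from the core nodes -/

section Cyclic

variable {K K' : Type} [Field K] [NumberField K] [Field K'] [NumberField K'] [Algebra K K']

theorem baseStableU_upOf {Dt : L2Data K K'} (h : SU736.BaseStable Dt) :
    BaseStableU (upOf Dt) := h

/-- **`SU736.ExpUpC` from the core form.** -/
theorem expUpC_of_core (hC : ExpUpCoreC K') : SU736.ExpUpC K K' := by
  intro ℓ hcyc _ hcplx Φ hΦ _ Dt hDt hst g hg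
  exact hC ℓ hcyc.prime (totCplx_of_base hcplx) Φ hΦ (upOf Dt) (isUpData_upOf hDt)
    (baseStableU_upOf hst) g hg

/-- **`SU736.NonVanC` from the core form.** -/
theorem nonVanC_of_core (hC : NonVanCoreC K') : SU736.NonVanC K K' := by
  intro ℓ hcyc _ hcplx Φ hΦ _ Dt hDt hst
  exact hC ℓ hcyc.prime (totCplx_of_base hcplx) Φ hΦ (upOf Dt) (isUpData_upOf hDt)
    (baseStableU_upOf hst)

/-- **`SU736.SpecUpCS` from the core form.** -/
theorem specUpCS_of_core (hC : SpecUpCoreSC K') : SU736.SpecUpCS K K' := by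
  intro ℓ hcyc _ hcplx Φ hΦ _ Dt hDt hst
  exact hC ℓ hcyc.prime (totCplx_of_base hcplx) Φ hΦ (upOf Dt) (isUpData_upOf hDt)
    (baseStableU_upOf hst)

end Cyclic

/-! ## 3. The quadratic step: the data of helper826 -/

section Quadratic

variable {F : Type} [Field F] [NumberField F]

/-- The upstairs part of the data of level 2, quadratic step. -/
def upOfQ (Dt : L2Q.L2QData F) : UpData F where
  l := 2
  s := Dt.s
  k := Dt.k
  R' := Dt.R'
  𝔑₀ := Dt.𝔑₀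
  S' := Dt.S'
  o := Dt.o
  𝔑 := Dt.𝔑
  c := Dt.c
  φ' := Dt.φ'
  m₀ := Dt.m₀

/-- **STABILITY, quadratic step**: the base level is `σ`-stable, and `S'` contains every place
over a prime of `S` (with `L2Q.IsL2QData.under`: `S'` = the places over the primes of `S`).
Free for the supplier: `𝔑₀ = 𝔫₀ 𝒪_F`, `S` = the primes dividing `𝔫₀`. -/
def IsStableQ (Dt : L2Q.L2QData F) : Prop :=
  T5.AutPreserves Dt.s Dt.𝔑₀ Dt.R'.μ Dt.R'.r ∧
    ∀ p : ℕ, p.Prime → p ∈ Dt.S → ∀ w : HeightOneSpectrum (𝓞 F),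
      ((p : ℕ) : 𝓞 F) ∈ w.asIdeal → w ∈ Dt.S'

/-- Every finite place lies over a prime number. -/
theorem exists_prime_mem29 (w : HeightOneSpectrum (𝓞 F)) :
    ∃ p : ℕ, p.Prime ∧ ((p : ℕ) : 𝓞 F) ∈ w.asIdeal := by
  have hpr : (w.asIdeal.comap (algebraMap ℤ (𝓞 F))).IsPrime := Ideal.comap_isPrime _ _
  have hne : w.asIdeal.comap (algebraMap ℤ (𝓞 F)) ≠ ⊥ := fun h =>
    w.ne_bot (Ideal.eq_bot_of_comap_eq_bot h)
  obtain ⟨n, hn⟩ : ∃ n : ℤ, w.asIdeal.comap (algebraMap ℤ (𝓞 F)) = Ideal.span {n} :=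
    ⟨_, (Submodule.IsPrincipal.span_singleton_generator
      (w.asIdeal.comap (algebraMap ℤ (𝓞 F)))).symm⟩
  have hn0 : n ≠ 0 := by
    rintro rfl
    apply hne
    rw [hn]
    simp
  have hnp : Prime n := by
    have := hpr
    rw [hn] at this
    exact (Ideal.span_singleton_prime hn0).1 this
  refine ⟨n.natAbs, Int.prime_iff_natAbs_prime.1 hnp, ?_⟩
  have hmem : (n : ℤ) ∈ w.asIdeal.comap (algebraMap ℤ (𝓞 F)) := by
    rw [hn]
    exact Ideal.mem_span_singleton_self n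
  have hmem' : ((n : ℤ) : 𝓞 F) ∈ w.asIdeal := by
    simpa using hmem
  rcases Int.natAbs_eq n with h | h
  · have e : ((n.natAbs : ℕ) : 𝓞 F) = ((n : ℤ) : 𝓞 F) := by
      conv_rhs => rw [h]
      simp
    rw [e]
    exact hmem'
  · have e : ((n.natAbs : ℕ) : 𝓞 F) = -((n : ℤ) : 𝓞 F) := by
      conv_rhs => rw [h]
      simp
    rw [e]
    exact w.asIdeal.neg_mem hmem'

/-- A prime number in `w` lies in the image of `w` under an automorphism. -/
theorem natCast_mem_of_placeRel29 (s : T5.AdelicAut F) {w w' : HeightOneSpectrum (𝓞 F)}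
    (hrel : T5.PlaceRel s w w') {p : ℕ} (hp : ((p : ℕ) : 𝓞 F) ∈ w.asIdeal) :
    ((p : ℕ) : 𝓞 F) ∈ w'.asIdeal := by
  unfold T5.PlaceRel at hrel
  rw [hrel, Ideal.mem_map_of_equiv]
  exact ⟨_, hp, map_natCast _ p⟩

/-- The identity is supported at the bad places. -/
theorem isBad_oneQ (Dt : L2Q.L2QData F) : Dt.IsBad (1 : G F) :=
  ⟨fun w => trivAtInf_one29 w, fun v _ => trivAtFin_one29 v⟩

/-- **The upstairs fields of `L2Q.IsL2QData`** (stable data). -/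
theorem isUpData_upOfQ {Φ : HeckeEigensystem F ℂ} {Dt : L2Q.L2QData F}
    (h : L2Q.IsL2QData Φ Dt) (hst : IsStableQ Dt) : IsUpData 2 Φ (upOfQ Dt) where
  deg := rfl
  cyc := (h.comp 1 (isBad_oneQ Dt)).cyc
  frame' := (h.comp 1 (isBad_oneQ Dt)).frame'
  level_ne := fun g hg => by
    show Ideal.map (algebraMap (𝓞 ℚ) (𝓞 F)) (Dt.𝔫 g) ≠ ⊥
    rw [Ne, Ideal.map_eq_bot_iff_of_injective (RingOfIntegers.algebraMap.injective ℚ F)]
    exact (h.comp g hg).level_ne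
  aut := fun g hg => (h.comp g hg).aut
  level_le := h.level_le
  level_g := h.level_g
  mem_S' := h.mem_S'
  mem_S'_g := h.mem_S'_g
  const := fun w hw w' _ hrel => by
    obtain ⟨p, hp, hpw⟩ := exists_prime_mem29 w
    have hpS : p ∉ Dt.S := fun hmem => hw (hst.2 p hp hmem w hpw)
    exact h.const p hp hpS w w' hpw (natCast_mem_of_placeRel29 Dt.s hrel hpw)
  orbit_rel := h.orbit_rel
  orbit_ne := h.orbit_ne
  orbit_level := h.orbit_level
  orbit_good := h.orbit_good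
  ekprod_up := h.ekprod_up
  reg_up := h.reg_up
  base_ne := h.base_ne
  op_up := h.op_up
  kill_up := h.kill_up
  proj_up := h.proj_up

/-- **NODE T7.L2Q.1 = SUPPLY over `ℚ`, stable form** (`L2Q.SupplyQC` + `IsStableQ`). -/
def SupplyQSC (P : EKCond) (F : Type) [Field F] [NumberField F] : Prop :=
  HasSqrtNegThree F → IsImagQuad F →
    ∀ Φ : HeckeEigensystem F ℂ, A0.IsCuspAdelicSph0 F Φ → ConstOnFibresQ Φ → P F Φ →
      ∃ Dt : L2Q.L2QData F, L2Q.IsL2QData Φ Dt ∧ IsStableQ Dt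

/-- **`L2Q.SpecUpQC` for stable data** (what the assembly of the quadratic step uses). -/
def SpecUpQSC (F : Type) [Field F] [NumberField F] : Prop :=
  HasSqrtNegThree F → IsImagQuad F →
    ∀ Φ : HeckeEigensystem F ℂ, A0.IsCuspAdelicSph0 F Φ → ConstOnFibresQ Φ →
      ∀ Dt : L2Q.L2QData F, L2Q.IsL2QData Φ Dt → IsStableQ Dt →
      ∃ (g : G F) (e' : ℕ → G F → ℂ) (ι' : Type) (C : ι' → EigData F) (b' l' : ι' → ℂ)
        (R : ℝ) (y : ι' → ℂ),
        Dt.IsBad g ∧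
        T5.IsCuspONB (Dt.𝔑 g) T5.trivType Dt.R'.r Dt.R'.μ Dt.R'.F e' ∧
        Summable (fun j => ‖y j‖) ∧ (∀ j, (C j).IsUnitaryOut Dt.S') ∧
        (∀ j, IsRegParam R (b' j) (l' j)) ∧
        (∀ X : List (Gen F), (∀ x ∈ X, x.Out Dt.S') → ∀ (k : ℤ) (m : ℕ), Dt.m₀ g X ≤ m →
          specSide Dt.s Dt.R' e' (Dt.φ' g X k m)
            = ∑' j, wordEv X (C j) * y j * b' j ^ k * l' j ^ m) ∧
        ∃ b₀ l₀ : ℂ,
          (∑' j : {j : {j : ι' // b' j = b₀ ∧ l' j = l₀} //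
              (C j.1).AgreeOut Dt.S' (eigOf Φ)}, y j.1.1) ≠ 0

variable {P : EKCond}

/-- **The upstairs node of the quadratic step from the core node.** -/
theorem specUpQSC_of_core (hC : SpecUpCoreSC F) : SpecUpQSC F := by
  intro _ hquad Φ hΦ _ Dt hDt hst
  exact hC 2 Nat.prime_two hquad.2 Φ hΦ (upOfQ Dt) (isUpData_upOfQ hDt hst) hst.1

/-- `L2Q.SpecUpQC` gives the stable form. -/
theorem specUpQSC_of_specUpQC (h : L2Q.SpecUpQC F) : SpecUpQSC F :=
  fun h3 hquad Φ hΦ hconst Dt hDt _ => h h3 hquad Φ hΦ hconst Dt hDt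

/-- **THE ASSEMBLY OF THE QUADRATIC STEP, stable form**: the proof of
`L2Q.traceWordsQRegP_of` (helper826) with the stability of the supplied data carried along. -/
theorem traceWordsQRegP_ofS (hS : SupplyQSC P F) (hU : SpecUpQSC F) (hD : L2Q.SpecDownQC F)
    (hI : L2Q.SpecIdQC F) : TraceWordsQRegP P F := by
  intro h3 hquad Φ hΦ hconst hP
  obtain ⟨Dt, hDt, hst⟩ := hS h3 hquad Φ hΦ hconst hP
  obtain ⟨g, e', ι', C, b', l', R', y, hg, he', hy, hUB, hp', hexp', hne⟩ :=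
    hU h3 hquad Φ hΦ hconst Dt hDt hst
  obtain ⟨e₀, ι₀, c₀, Ch₀, b₀, l₀, R₀, x₀, he₀, hx₀, hUA₀, hbc₀, hp₀, hexp₀, hreal₀⟩ :=
    hD L2Q.QWt.w0 h3 hquad Φ hΦ hconst Dt hDt g hg
  obtain ⟨e₁, ι₁, c₁, Ch₁, b₁, l₁, R₁, x₁, he₁, hx₁, hUA₁, hbc₁, hp₁, hexp₁, hreal₁⟩ :=
    hD L2Q.QWt.w1 h3 hquad Φ hΦ hconst Dt hDt g hg
  have hUA : ∀ i : ι₀ ⊕ ι₁, (Sum.elim Ch₀ Ch₁ i).IsUnitaryOut Dt.S' := by
    rintro (i | i)
    · exact hUA₀ i
    · exact hUA₁ i
  have hx : Summable fun i : ι₀ ⊕ ι₁ => ‖Sum.elim x₀ x₁ i‖ :=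
    Summable.sum _ (by simpa [Function.comp_def] using hx₀)
      (by simpa [Function.comp_def] using hx₁)
  have hp : ∀ i : ι₀ ⊕ ι₁,
      IsRegParam (max R' (max R₀ R₁)) (Sum.elim b₀ b₁ i) (Sum.elim l₀ l₁ i) := by
    rintro (i | i)
    · exact isRegParam_mono ((le_max_left _ _).trans (le_max_right _ _)) (hp₀ i)
    · exact isRegParam_mono ((le_max_right _ _).trans (le_max_right _ _)) (hp₁ i)
  refine ⟨Dt.S, Dt.S', ι₀ ⊕ ι₁, ι', Sum.elim c₀ c₁, Sum.elim Ch₀ Ch₁, C, Sum.elim b₀ b₁,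
    Sum.elim l₀ l₁, b', l', max R' (max R₀ R₁), Sum.elim x₀ x₁, y, hDt.under, hx, hy, hUA, hUB,
    ?_, hp, fun j => isRegParam_mono (le_max_left _ _) (hp' j), ?_, hne, ?_⟩
  · rintro (i | i)
    · exact hbc₀ i
    · exact hbc₁ i
  · intro X hX
    refine ⟨Dt.m₀ g X, fun m hm k => ?_⟩
    have hid := (hI (Dt.comp g) (hDt.comp g hg) (Dt.φ' g X k m) (Dt.f L2Q.QWt.w0 g X k m)
      (Dt.f L2Q.QWt.w1 g X k m)
      (isAdm5_of_ekProd (hDt.ekprod_up g X k m hg hX) (hDt.reg_up g X k m hg hX hm))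
      (L2Q.isAdm5T_of_ekProdT (hDt.ekprod_down L2Q.QWt.w0 g X k m hg hX)
        (hDt.reg_down L2Q.QWt.w0 g X k m hg hX hm))
      (L2Q.isAdm5T_of_ekProdT (hDt.ekprod_down L2Q.QWt.w1 g X k m hg hX)
        (hDt.reg_down L2Q.QWt.w1 g X k m hg hX hm))
      (hDt.matched g X k m hg hX hm) e' e₀ e₁ he' he₀ he₁).2.2.2
    have hs₀ := L2Q.summable_atoms hUA₀ hx₀ hp₀ X hX k m
    have hs₁ := L2Q.summable_atoms hUA₁ hx₁ hp₁ X hX k m
    have hsplit : (∑' i : ι₀ ⊕ ι₁, wordEv X (Sum.elim Ch₀ Ch₁ i) * Sum.elim x₀ x₁ i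
          * Sum.elim b₀ b₁ i ^ k * Sum.elim l₀ l₁ i ^ m)
        = (∑' i, wordEv X (Ch₀ i) * x₀ i * b₀ i ^ k * l₀ i ^ m)
          + ∑' i, wordEv X (Ch₁ i) * x₁ i * b₁ i ^ k * l₁ i ^ m :=
      Summable.tsum_sum (f := fun i : ι₀ ⊕ ι₁ => wordEv X (Sum.elim Ch₀ Ch₁ i)
        * Sum.elim x₀ x₁ i * Sum.elim b₀ b₁ i ^ k * Sum.elim l₀ l₁ i ^ m) hs₀ hs₁
    rw [hsplit, ← hexp₀ X hX k m hm, ← hexp₁ X hX k m hm, ← hexp' X hX k m hm]
    exact hid.symm
  · rintro (i | i)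
    · exact hreal₀ i
    · exact hreal₁ i

/-- **THE QUADRATIC STEP FROM THE CORE NODE** (target `T7.TraceWordsQRegP P F`, VERBATIM):
the upstairs node is the SAME as in the cyclic step. -/
theorem traceWordsQRegP_ofCore (hS : SupplyQSC P F) (hU : SpecUpCoreSC F)
    (hD : L2Q.SpecDownQC F) (hI : L2Q.SpecIdQC F) : TraceWordsQRegP P F :=
  traceWordsQRegP_ofS hS (specUpQSC_of_core hU) hD hI

/-- The same from the two core nodes of the cut of helper736. -/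
theorem traceWordsQRegP_ofCore2 (hS : SupplyQSC P F) (hE : ExpUpCoreC F) (hN : NonVanCoreC F)
    (hD : L2Q.SpecDownQC F) (hI : L2Q.SpecIdQC F) : TraceWordsQRegP P F :=
  traceWordsQRegP_ofCore hS (specUpCoreSC_of hE hN) hD hI

end Quadratic

end Fermat.Agent.LT.T7.H29

end
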